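/-
Project BAD, layer L-MOD, block NONCUSP (sub-architect helper149): the closed points of the
NON-CUSPIDAL chart.  Target: the field `pts₁` of `Fermat.Agent.S36.BP.Model` (structure `PtHyp`).

`NonCuspData q V Y z κ e` is the input of the local analysis:

* `Y c` is an indicator function of the component `V c`: `Y 0 * Y 1 * Y 2 = q`, `Y c` is a nonunit
  of `V c` and a unit of the two other vertical valuations.
  [Modular instance: `x = G(τ)/G(qτ)` on `X₀(q N₀)`, `G` the weight one eta quotient without zeros,
  `y = q / x`;  `Y 2 = α x`, `Y 0 = β y`, `Y 1 = β x / α x`;  orders `(0,0,1)`, `(1,0,0)`,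
  `(0,q-1,0)`.]
* three congruences which govern the incidence of the components
  [instance: `e 0 = e 2 = 1`, `e 1` a constant];
* `z` is a uniformiser of the middle component, with `(z^(q-1)/q) κ ≡ e 3` on it, where `κ` is a
  function which is a unit at the points lying on the middle component only
  [instance: `z = t(q²τ)/t(τ) - 1`, `t` the Hauptmodul of the auxiliary level; `κ = Y 0 * Y 2` or
  `κ = (θ t / t)^(q-1) / G^(2(q-1))`-type corrections of it].

There is no thickness analysis, no Hasse invariant and no notion of supersingular point: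
a crossing point is a point at which all the `Y c` vanish.
-/
import Mathlib
import Fermat.Agent.S18.Defs
import Fermat.Agent.S36.BP.Defs

set_option autoImplicit false

namespace Fermat.Agent.BAD.Model

open Fermat.Agent.S18 Fermat.Agent.S36.BP

/-- The input of the local analysis at the non-cuspidal points. -/
structure NonCuspData {F : Type*} [Field F] (q : ℕ) (V : Fin 3 → ValuationSubring F)
    (Y : Fin 3 → F) (z κ : F) (e : Fin 4 → F) : Prop where
  prod : Y 0 * Y 1 * Y 2 = (q : F)
  lt : ∀ c, (V c).valuation (Y c) < 1
  unit : ∀ c c', c' ≠ c → (V c').valuation (Y c) = 1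
  cong0 : (V 0).valuation (Y 1 - e 0 * Y 2 ^ (q - 1)) < 1
  cong1 : (V 1).valuation (Y 0 - e 1 * Y 2) < 1
  cong2 : (V 2).valuation (Y 1 - e 2 * Y 0 ^ (q - 1)) < 1
  unifz : IsUnif (V 1) z
  congz : (V 1).valuation (z ^ (q - 1) / (q : F) * κ - e 3) < 1

end Fermat.Agent.BAD.Model
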