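/-
Project BAD, layer L-MOD, block NONCUSP (sub-architect helper149): the closed points of the
non-cuspidal chart.  Main result: `NonCuspData.ptHyp` (the field `pts₁` of `S36.BP.Model` at a point
`R` at which the indicator functions `Y c` and `z` are regular).
-/
import Mathlib
import Fermat.Agent.S18.Chart.Unif
import Fermat.Agent.S36.BP.Rad
import Fermat.Agent.S36.BP.Base
import Fermat.Agent.S36.BP.Build.LocalCrit
import Fermat.Agent.BAD.Model.Defs
import Fermat.Agent.BAD.Model.Cusp.Through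
import Fermat.Agent.BAD.Model.NonCusp.Defs

set_option autoImplicit false

noncomputable section

namespace Fermat.Agent.BAD.Model

open Fermat.Agent.S18 Fermat.Agent.S36.BP Fermat.Agent.S36.BP.Build

variable {K₀ F : Type*} [Field K₀] [Field F] [Algebra K₀ F]
variable {A₀ : ValuationSubring K₀} {q : ℕ} {V : Fin 3 → ValuationSubring F} {ϖm : F}
variable {R : Subring F} {Y : Fin 3 → F} {z κ : F} {e : Fin 4 → F}

/-! ### NC-0 : generalities -/

/-- a nonunit of a discrete valuation ring is divisible by the uniformiser. -/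
theorem IsUnif.val_le_of_lt_one {W : ValuationSubring F} {ϖ : F} (h : IsUnif W ϖ) {y : F}
    (hy : W.valuation y < 1) : W.valuation y ≤ W.valuation ϖ := by
  by_cases hy0 : y = 0
  · rw [hy0, map_zero]; exact zero_le
  have hmem : y / ϖ ∈ W := by
    refine h.div_mem (mem_iff_val_le.2 hy.le) fun hinv => ?_
    have h1 := mem_iff_val_le.1 hinv
    rw [map_inv₀] at h1
    have hne : W.valuation y ≠ 0 := (Valuation.ne_zero_iff _).2 hy0
    have h2 : 1 ≤ W.valuation y := by rwa [inv_le_one₀ (zero_lt_iff.2 hne)] at h1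
    exact absurd hy (not_lt.2 h2)
  have h1 := mem_iff_val_le.1 hmem
  rw [map_div₀] at h1
  have hne : W.valuation ϖ ≠ 0 := (Valuation.ne_zero_iff _).2 h.ne_zero
  rwa [div_le_one₀ (zero_lt_iff.2 hne)] at h1

/-- two uniformisers have the same valuation. -/
theorem IsUnif.val_eq_val {W : ValuationSubring F} {ϖ ϖ' : F} (h : IsUnif W ϖ) (h' : IsUnif W ϖ') :
    W.valuation ϖ = W.valuation ϖ' :=
  le_antisymm (IsUnif.val_le_of_lt_one h' (valuation_lt_one_of_isUnif h))
    (IsUnif.val_le_of_lt_one h (valuation_lt_one_of_isUnif h'))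

theorem PtBase.locQep (hR : PtBase A₀ q V R) (hta : ∀ c, Through R (V c) ∨ Away R (V c)) :
    LocQep q V R := by
  intro y hy hV
  refine hR.qep y hy fun c => ?_
  rcases hta c with h | h
  · exact Or.inl (hV c h)
  · exact Or.inr h

theorem PtBase.exists_through (hR : PtBase A₀ q V R)
    (hta : ∀ c, Through R (V c) ∨ Away R (V c)) : ∃ c, Through R (V c) := by
  by_contra hne
  push_neg at hne
  exact hR.not_all_away fun c => (hta c).resolve_left (hne c)

namespace NonCuspData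

variable (D : NonCuspData q V Y z κ e)
include D

theorem q_ne_zero (hb : BaseHyp A₀ q) : (q : F) ≠ 0 := by
  have := hb.charZero
  have h1 : (q : K₀) ≠ 0 := hb.q_ne_zero
  have h2 : algebraMap K₀ F (q : K₀) ≠ 0 := fun h =>
    h1 ((map_eq_zero (algebraMap K₀ F)).1 h)
  simpa using h2

theorem Y_ne_zero (hb : BaseHyp A₀ q) (c : Fin 3) : Y c ≠ 0 := by
  intro h
  apply D.q_ne_zero hb
  rw [← D.prod]
  fin_cases c <;> simp_all

/-- `q / Y c` is the product of the two other `Y`'s. -/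
theorem q_div_mem (hb : BaseHyp A₀ q) (hY : ∀ c, Y c ∈ R) (c : Fin 3) : (q : F) ^ 1 / Y c ∈ R := by
  have h0 := D.Y_ne_zero hb 0
  have h1 := D.Y_ne_zero hb 1
  have h2 := D.Y_ne_zero hb 2
  rw [pow_one, ← D.prod]
  fin_cases c
  · have : Y 0 * Y 1 * Y 2 / Y 0 = Y 1 * Y 2 := by field_simp
    simpa [this] using R.mul_mem (hY 1) (hY 2)
  · have : Y 0 * Y 1 * Y 2 / Y 1 = Y 0 * Y 2 := by field_simp
    simpa [this] using R.mul_mem (hY 0) (hY 2)
  · have : Y 0 * Y 1 * Y 2 / Y 2 = Y 0 * Y 1 := by field_simp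
    simpa [this] using R.mul_mem (hY 0) (hY 1)

theorem val_Y0 : (V 0).valuation (Y 0) = (V 0).valuation (q : F) := by
  rw [← D.prod, map_mul, map_mul, D.unit 1 0 (by decide), D.unit 2 0 (by decide), mul_one, mul_one]

theorem val_Y2 : (V 2).valuation (Y 2) = (V 2).valuation (q : F) := by
  rw [← D.prod, map_mul, map_mul, D.unit 0 2 (by decide), D.unit 1 2 (by decide), one_mul, one_mul]

/-- `Y c` is a unit at the points which do not lie on the component `c`. -/
theorem runit_of_away (hb : BaseHyp A₀ q) (hqep : LocQep q V R) (hY : ∀ c, Y c ∈ R) (c : Fin 3)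
    (hA : Away R (V c)) : RUnit R (Y c) := by
  refine runit_of hqep (hY c) (D.Y_ne_zero hb c) (D.q_div_mem hb hY c) fun c' hT => ?_
  refine D.unit c c' ?_
  rintro rfl
  exact not_away_of_through hT hA

/-! ### NC-1 : principality on the two reduced components -/

theorem princ0 (hb : BaseHyp A₀ q) (hU0 : IsUnif (V 0) (q : F)) (hqep : LocQep q V R)
    (hY : ∀ c, Y c ∈ R) : Princ R (V 0) :=
  princ_of hqep 0 (hY 0) (D.Y_ne_zero hb 0) (D.q_div_mem hb hY 0) (D.lt 0)
    (fun y hy => by rw [D.val_Y0]; exact IsUnif.val_le_of_lt_one hU0 hy)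
    (fun c hc _ => D.unit 0 c hc)

theorem princ2 (hb : BaseHyp A₀ q) (hU2 : IsUnif (V 2) (q : F)) (hqep : LocQep q V R)
    (hY : ∀ c, Y c ∈ R) : Princ R (V 2) :=
  princ_of hqep 2 (hY 2) (D.Y_ne_zero hb 2) (D.q_div_mem hb hY 2) (D.lt 2)
    (fun y hy => by rw [D.val_Y2]; exact IsUnif.val_le_of_lt_one hU2 hy)
    (fun c hc _ => D.unit 2 c hc)

/-! ### NC-2 : principality at the points which lie on the middle component only -/

/-- at a point on the middle component only, `z ^ (q - 1) / q` is a unit. -/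
theorem runit_mid (hb : BaseHyp A₀ q) (hU1 : IsUnif (V 1) ϖm)
    (hram : (V 1).valuation ϖm ^ (q - 1) = (V 1).valuation (q : F))
    (hR : IsPt A₀ R) (hqep : LocQep q V R) (hz : z ∈ R) (hκ : RUnit R κ)
    (he : RUnit R (e 3)) (hT : Through R (V 1)) (hA0 : Away R (V 0)) (hA2 : Away R (V 2)) :
    RUnit R (z ^ (q - 1) / (q : F)) := by
  have hq0 := D.q_ne_zero hb
  have hval : (V 1).valuation (z ^ (q - 1) / (q : F)) = 1 := by
    rw [map_div₀, map_pow, IsUnif.val_eq_val D.unifz hU1, hram]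
    exact div_self ((Valuation.ne_zero_iff _).2 hq0)
  have hmem : z ^ (q - 1) / (q : F) ∈ R := by
    refine hqep _ ?_ fun c hc => ?_
    · rw [mul_div_cancel₀ _ hq0]
      exact R.pow_mem hz _
    · fin_cases c
      · exact absurd hA0 (not_away_of_through hc)
      · exact mem_iff_val_le.2 hval.le
      · exact absurd hA2 (not_away_of_through hc)
  have hcr : Cr R (z ^ (q - 1) / (q : F) * κ) (e 3) :=
    Cg.cr hT.le D.congz (R.mul_mem hmem hκ.mem) he.mem
  exact RUnit.of_mul_left hmem hκ.mem (hR.runit_of_cr hcr he)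

theorem princ1 (hb : BaseHyp A₀ q) (hU1 : IsUnif (V 1) ϖm)
    (hram : (V 1).valuation ϖm ^ (q - 1) = (V 1).valuation (q : F))
    (hR : IsPt A₀ R) (hqep : LocQep q V R) (hz : z ∈ R) (hκ : RUnit R κ)
    (he : RUnit R (e 3)) (hT : Through R (V 1)) (hA0 : Away R (V 0)) (hA2 : Away R (V 2)) :
    Princ R (V 1) := by
  have hq0 := D.q_ne_zero hb
  have hz0 : z ≠ 0 := D.unifz.ne_zero
  have hγ := D.runit_mid hb hU1 hram hR hqep hz hκ he hT hA0 hA2
  have h2 : 2 ≤ q := hb.prime.two_le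
  refine princ_of hqep 1 hz hz0 (k := 1) ?_ (valuation_lt_one_of_isUnif D.unifz)
    (fun y hy => IsUnif.val_le_of_lt_one D.unifz hy) fun c hc hTc => ?_
  · have : (q : F) ^ 1 / z = z ^ (q - 2) * (z ^ (q - 1) / (q : F))⁻¹ := by
      have h3 : z ^ (q - 1) = z ^ (q - 2) * z := by
        rw [← pow_succ]; congr 1; omega
      rw [h3]
      field_simp
    rw [this]
    exact R.mul_mem (R.pow_mem hz _) hγ.inv_mem
  · fin_cases c
    · exact absurd hA0 (not_away_of_through hTc)
    · exact absurd rfl hc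
    · exact absurd hA2 (not_away_of_through hTc)

/-! ### NC-3 : the theorem -/

/-- **The non-cuspidal points**, with `Through` supplied directly (form asked by helper36,
ruling 08:05). -/
theorem ptHyp' (hb : BaseHyp A₀ q) (hU0 : IsUnif (V 0) (q : F)) (hU1 : IsUnif (V 1) ϖm)
    (hU2 : IsUnif (V 2) (q : F))
    (hram : (V 1).valuation ϖm ^ (q - 1) = (V 1).valuation (q : F))
    (hR : PtBase A₀ q V R) (hY : ∀ c, Y c ∈ R) (hz : z ∈ R) (he : ∀ i, RUnit R (e i))
    (hκ : RUnit R (Y 0) → RUnit R (Y 2) → RUnit R κ)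
    (hT : ∀ i, LeLoc R (V i) → Through R (V i))
    (Eα Eβ : Subfield F) (Nα Nβ : F →* F)
    (hH : (∀ c, Through R (V c)) → HalfPt Eα Nα (V 0) (V 1) R ∧ HalfPt Eβ Nβ (V 2) (V 1) R) :
    PtHyp V Eα Eβ Nα Nβ R := by
  have hta : ∀ c, Through R (V c) ∨ Away R (V c) := fun c =>
    (hR.leLoc_or_away c).imp (fun hL => hT c hL) id
  have hqep := hR.locQep hta
  have hne := hR.exists_through hta
  have hinc := incidence hb.prime.two_le hR.isPt.add_rad hta hne Y hY D.lt
    (fun c hA => D.runit_of_away hb hqep hY c hA)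
    ⟨e 0, he 0, D.cong0⟩ ⟨e 1, he 1, D.cong1⟩ ⟨e 2, he 2, D.cong2⟩
  rcases hinc with ⟨c, hc⟩ | hall
  · have hT : Through R (V c) := by
      obtain ⟨c', hc'⟩ := hne
      by_cases h : c' = c
      · exact h ▸ hc'
      · exact absurd (hc c' h) (not_away_of_through hc')
    refine ⟨hta, ⟨c, hT, ?_⟩, Or.inl ⟨c, hc⟩⟩
    fin_cases c
    · exact D.princ0 hb hU0 hqep hY
    · have hA0 := hc 0 (by decide)
      have hA2 := hc 2 (by decide)
      exact D.princ1 hb hU1 hram hR.isPt hqep hz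
        (hκ (D.runit_of_away hb hqep hY 0 hA0) (D.runit_of_away hb hqep hY 2 hA2)) (he 3) hT hA0 hA2
    · exact D.princ2 hb hU2 hqep hY
  · exact ⟨hta, ⟨0, hall 0, D.princ0 hb hU0 hqep hY⟩, Or.inr ⟨hall, hH hall⟩⟩

/-- **The non-cuspidal points.** -/
theorem ptHyp (hb : BaseHyp A₀ q) (hU0 : IsUnif (V 0) (q : F)) (hU1 : IsUnif (V 1) ϖm)
    (hU2 : IsUnif (V 2) (q : F))
    (hram : (V 1).valuation ϖm ^ (q - 1) = (V 1).valuation (q : F))
    (hR : PtBase A₀ q V R) (hY : ∀ c, Y c ∈ R) (hz : z ∈ R) (he : ∀ i, RUnit R (e i))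
    (hκ : RUnit R (Y 0) → RUnit R (Y 2) → RUnit R κ)
    (E : Fin 3 → Subfield F) (hG : ∀ i, LeLoc R (V i) → GoodBelow (V i) (E i) R)
    (Eα Eβ : Subfield F) (Nα Nβ : F →* F)
    (hH : (∀ c, Through R (V c)) → HalfPt Eα Nα (V 0) (V 1) R ∧ HalfPt Eβ Nβ (V 2) (V 1) R) :
    PtHyp V Eα Eβ Nα Nβ R :=
  D.ptHyp' hb hU0 hU1 hU2 hram hR hY hz he hκ (fun i hL => (hG i hL).through hR.isPt hL)
    Eα Eβ Nα Nβ hH

/-- `Y 1` is regular at every point at which `Y 0` and `Y 2` are: local `q`-expansion principle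
(`q * Y 1` need not be given: it suffices that `q * Y 1 ∈ R`). -/
theorem Y1_mem (hR : PtBase A₀ q V R) (h : (q : F) * Y 1 ∈ R) : Y 1 ∈ R := by
  refine hR.qep _ h fun c => Or.inl ?_
  by_cases hc : c = 1
  · subst hc
    exact mem_iff_val_le.2 (D.lt 1).le
  · exact mem_iff_val_le.2 (D.unit 1 c hc).le

end NonCuspData

end Fermat.Agent.BAD.Model
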